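import Mathlib
import Fermat.Agent.LT.T2.H429.OpsSpec

/-!
# Row LT, tower T2, sub-leaf T2.07.12 `SubSpherePres429` (helper90), part 1 -- OFF-MAIN

Local components of `GL₂(𝔸_K)`: multiplicativity of the components, commutation of elements
supported at different places, the element `locG_h90 hw m` supported at a complex place with a
given component.  Used by `SpherePres.lean`.
-/

set_option autoImplicit false
set_option linter.unusedSectionVars false

open IsDedekindDomain NumberField MeasureTheory
open Fermat.Agent.LT.H556.A0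
open Fermat.Agent.LT.T2 Fermat.Agent.LT.T2.H429

noncomputable section

namespace Fermat.Agent.LT.T2.H90

variable {K : Type} [Field K] [NumberField K]

/-! ## 1. Components -/

/-- The projection of the adele ring to the completion at the infinite place `w`. -/
def infPr_h90 (w : InfinitePlace K) : Adl K →+* w.Completion where
  toFun a := a.1 w
  map_one' := rfl
  map_mul' _ _ := rfl
  map_zero' := rfl
  map_add' _ _ := rfl

/-- The projection of the adele ring to the completion at the finite place `v`. -/
def finPr_h90 (v : HeightOneSpectrum (𝓞 K)) : Adl K →+* v.adicCompletion K where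
  toFun a := a.2 v
  map_one' := rfl
  map_mul' _ _ := rfl
  map_zero' := rfl
  map_add' _ _ := rfl

/-- The raw matrix of `g` at the infinite place `w`. -/
def infRaw_h90 (w : InfinitePlace K) (g : G K) : Matrix (Fin 2) (Fin 2) w.Completion :=
  (g : Matrix (Fin 2) (Fin 2) (Adl K)).map (infPr_h90 w)

theorem infRaw_mul_h90 (w : InfinitePlace K) (g h : G K) :
    infRaw_h90 w (g * h) = infRaw_h90 w g * infRaw_h90 w h := by
  simp only [infRaw_h90, Units.val_mul]
  exact Matrix.map_mul

theorem finComp_eq_map_h90 (v : HeightOneSpectrum (𝓞 K)) (g : G K) :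
    finComp v g = (g : Matrix (Fin 2) (Fin 2) (Adl K)).map (finPr_h90 v) := rfl

theorem finComp_mul_h90 (v : HeightOneSpectrum (𝓞 K)) (g h : G K) :
    finComp v (g * h) = finComp v g * finComp v h := by
  simp only [finComp_eq_map_h90, Units.val_mul]
  exact Matrix.map_mul

theorem infComp_eq_map_h90 (w : InfinitePlace K) (g : G K) :
    infComp w g = (infRaw_h90 w g).map (InfinitePlace.Completion.extensionEmbedding w) := rfl

theorem infComp_mul_h90 (w : InfinitePlace K) (g h : G K) :
    infComp w (g * h) = infComp w g * infComp w h := by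
  simp only [infComp_eq_map_h90, infRaw_mul_h90]
  exact Matrix.map_mul

theorem trivAtInf_iff_h90 (w : InfinitePlace K) (g : G K) :
    TrivAtInf w g ↔ infRaw_h90 w g = 1 := by
  constructor
  · intro h
    exact Matrix.ext fun i j => h i j
  · intro h i j
    have := congrFun (congrFun h i) j
    exact this

theorem infRaw_injective_h90 (w : InfinitePlace K) {A B : Matrix (Fin 2) (Fin 2) w.Completion}
    (h : A.map (InfinitePlace.Completion.extensionEmbedding w)
      = B.map (InfinitePlace.Completion.extensionEmbedding w)) : A = B := by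
  refine Matrix.ext fun i j => ?_
  have := congrFun (congrFun h i) j
  exact (InfinitePlace.Completion.extensionEmbedding w).injective this

/-- Extensionality for elements of `GL₂(𝔸_K)`. -/
theorem gl_ext_h90 {g h : G K} (hinf : ∀ w : InfinitePlace K, infRaw_h90 w g = infRaw_h90 w h)
    (hfin : ∀ v : HeightOneSpectrum (𝓞 K), finComp v g = finComp v h) : g = h := by
  apply Units.ext
  ext i j
  refine Prod.ext ?_ ?_
  · funext w
    exact congrFun (congrFun (hinf w) i) j
  · apply DFunLike.ext
    intro v
    exact congrFun (congrFun (hfin v) i) j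

/-- Two elements commute if their components commute at every place. -/
theorem commute_of_comp_h90 {g h : G K}
    (hinf : ∀ w : InfinitePlace K,
      infRaw_h90 w g * infRaw_h90 w h = infRaw_h90 w h * infRaw_h90 w g)
    (hfin : ∀ v : HeightOneSpectrum (𝓞 K), finComp v g * finComp v h = finComp v h * finComp v g) :
    g * h = h * g := by
  refine gl_ext_h90 ?_ ?_
  · intro w
    rw [infRaw_mul_h90, infRaw_mul_h90, hinf w]
  · intro v
    rw [finComp_mul_h90, finComp_mul_h90, hfin v]

/-! ## 2. Commutation of elements supported at different places -/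

/-- An element which is trivial at all infinite places commutes with an element supported at
an infinite place. -/
theorem commute_level_local_h90 {w : InfinitePlace K} {u y : G K}
    (hu : ∀ w' : InfinitePlace K, TrivAtInf w' u) (hy : IsLocalAtInf w y) :
    u * y = y * u := by
  refine commute_of_comp_h90 ?_ ?_
  · intro w'
    rw [(trivAtInf_iff_h90 w' u).1 (hu w'), one_mul, mul_one]
  · intro v
    have : finComp v y = 1 := hy.2 v
    rw [this, one_mul, mul_one]

/-- An element supported at the infinite place `w'` commutes with an element supported at the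
infinite place `w`, if it is scalar at `w'` or if `w' ≠ w`. -/
theorem commute_local_local_h90 {w w' : InfinitePlace K} {z y : G K}
    (hz : IsLocalAtInf w' z) (hy : IsLocalAtInf w y)
    (h : w' ≠ w ∨ ∃ c : ℂ, infComp w' z = Matrix.diagonal (fun _ => c)) :
    z * y = y * z := by
  refine commute_of_comp_h90 ?_ ?_
  · intro w''
    by_cases h1 : w'' = w'
    · subst h1
      rcases h with h | ⟨c, hc⟩
      · have : infRaw_h90 w'' y = 1 := (trivAtInf_iff_h90 w'' y).1 (hy.1 w'' h)
        rw [this, one_mul, mul_one]
      · apply infRaw_injective_h90 w''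
        rw [Matrix.map_mul, Matrix.map_mul, ← infComp_eq_map_h90, ← infComp_eq_map_h90, hc]
        ext i j
        fin_cases i <;> fin_cases j <;>
          simp [Matrix.mul_apply, Fin.sum_univ_two, mul_comm]
    · have : infRaw_h90 w'' z = 1 := (trivAtInf_iff_h90 w'' z).1 (hz.1 w'' h1)
      rw [this, one_mul, mul_one]
  · intro v
    have : finComp v y = 1 := hy.2 v
    rw [this, one_mul, mul_one]

/-! ## 3. The element supported at a complex place with a given component -/

/-- Extensionality for matrices over the adeles. -/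
theorem mat_ext_h90 {A B : Matrix (Fin 2) (Fin 2) (Adl K)}
    (hinf : ∀ w : InfinitePlace K, A.map (infPr_h90 w) = B.map (infPr_h90 w))
    (hfin : ∀ v : HeightOneSpectrum (𝓞 K), A.map (finPr_h90 v) = B.map (finPr_h90 v)) :
    A = B := by
  ext i j
  refine Prod.ext ?_ ?_
  · funext w
    exact congrFun (congrFun (hinf w) i) j
  · apply DFunLike.ext
    intro v
    exact congrFun (congrFun (hfin v) i) j

open Classical in
/-- The matrix over the adeles with component `m` at the complex place `w` and the identity at
all other places. -/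
def locMat_h90 {w : InfinitePlace K} (hw : w.IsComplex) (m : Matrix (Fin 2) (Fin 2) ℂ) :
    Matrix (Fin 2) (Fin 2) (Adl K) :=
  fun i j =>
    (⟨Function.update (fun w' : InfinitePlace K => (1 : Matrix (Fin 2) (Fin 2) w'.Completion) i j)
        w ((InfinitePlace.Completion.ringEquivComplexOfIsComplex hw).symm (m i j)),
      (1 : Matrix (Fin 2) (Fin 2) (FiniteAdeleRing (𝓞 K) K)) i j⟩ :
      InfiniteAdeleRing K × FiniteAdeleRing (𝓞 K) K)

open Classical in
theorem locMat_inf_self_h90 {w : InfinitePlace K} (hw : w.IsComplex)
    (m : Matrix (Fin 2) (Fin 2) ℂ) :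
    (locMat_h90 hw m).map (infPr_h90 w)
      = m.map (InfinitePlace.Completion.ringEquivComplexOfIsComplex hw).symm := by
  refine Matrix.ext fun i j => ?_
  change Function.update (fun w' : InfinitePlace K => (1 : Matrix (Fin 2) (Fin 2) w'.Completion) i j)
        w ((InfinitePlace.Completion.ringEquivComplexOfIsComplex hw).symm (m i j)) w
      = (InfinitePlace.Completion.ringEquivComplexOfIsComplex hw).symm (m i j)
  exact Function.update_self _ _ _

open Classical in
theorem locMat_inf_ne_h90 {w w' : InfinitePlace K} (hw : w.IsComplex) (h : w' ≠ w)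
    (m : Matrix (Fin 2) (Fin 2) ℂ) :
    (locMat_h90 hw m).map (infPr_h90 w') = 1 := by
  refine Matrix.ext fun i j => ?_
  change Function.update (fun w' : InfinitePlace K => (1 : Matrix (Fin 2) (Fin 2) w'.Completion) i j)
        w ((InfinitePlace.Completion.ringEquivComplexOfIsComplex hw).symm (m i j)) w'
      = (1 : Matrix (Fin 2) (Fin 2) w'.Completion) i j
  exact Function.update_of_ne h _ _

theorem locMat_fin_h90 {w : InfinitePlace K} (hw : w.IsComplex) (v : HeightOneSpectrum (𝓞 K))
    (m : Matrix (Fin 2) (Fin 2) ℂ) :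
    (locMat_h90 hw m).map (finPr_h90 v) = 1 := by
  refine Matrix.ext fun i j => ?_
  change ((1 : Matrix (Fin 2) (Fin 2) (FiniteAdeleRing (𝓞 K) K)) i j) v
      = (1 : Matrix (Fin 2) (Fin 2) (v.adicCompletion K)) i j
  by_cases hij : i = j
  · subst hij
    simp only [Matrix.one_apply_eq]
    rfl
  · simp only [Matrix.one_apply_ne hij]
    rfl

theorem locMat_mul_h90 {w : InfinitePlace K} (hw : w.IsComplex)
    (m m' : Matrix (Fin 2) (Fin 2) ℂ) :
    locMat_h90 hw (m * m') = locMat_h90 hw m * locMat_h90 hw m' := by
  refine mat_ext_h90 ?_ ?_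
  · intro w'
    by_cases h : w' = w
    · subst h
      rw [Matrix.map_mul, locMat_inf_self_h90, locMat_inf_self_h90, locMat_inf_self_h90,
        Matrix.map_mul]
    · rw [Matrix.map_mul, locMat_inf_ne_h90 hw h, locMat_inf_ne_h90 hw h,
        locMat_inf_ne_h90 hw h, one_mul]
  · intro v
    rw [Matrix.map_mul, locMat_fin_h90, locMat_fin_h90, locMat_fin_h90, one_mul]

theorem locMat_one_h90 {w : InfinitePlace K} (hw : w.IsComplex) :
    locMat_h90 hw (1 : Matrix (Fin 2) (Fin 2) ℂ) = 1 := by
  refine mat_ext_h90 ?_ ?_
  · intro w'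
    by_cases h : w' = w
    · subst h
      rw [locMat_inf_self_h90, Matrix.map_one _ (map_zero _) (map_one _),
        Matrix.map_one _ (map_zero _) (map_one _)]
    · rw [locMat_inf_ne_h90 hw h, Matrix.map_one _ (map_zero _) (map_one _)]
  · intro v
    rw [locMat_fin_h90, Matrix.map_one _ (map_zero _) (map_one _)]

/-- The element of `GL₂(𝔸_K)` supported at the complex place `w` with component `m`. -/
def locG_h90 {w : InfinitePlace K} (hw : w.IsComplex) (m : GL (Fin 2) ℂ) : G K :=
  ⟨locMat_h90 hw (m : Matrix (Fin 2) (Fin 2) ℂ),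
    locMat_h90 hw ((m⁻¹ : GL (Fin 2) ℂ) : Matrix (Fin 2) (Fin 2) ℂ),
    by rw [← locMat_mul_h90, ← Units.val_mul, mul_inv_cancel, Units.val_one, locMat_one_h90],
    by rw [← locMat_mul_h90, ← Units.val_mul, inv_mul_cancel, Units.val_one, locMat_one_h90]⟩

theorem locG_mul_h90 {w : InfinitePlace K} (hw : w.IsComplex) (m m' : GL (Fin 2) ℂ) :
    locG_h90 (K := K) hw (m * m') = locG_h90 hw m * locG_h90 hw m' := by
  apply Units.ext
  exact locMat_mul_h90 hw _ _

theorem locG_isLocal_h90 {w : InfinitePlace K} (hw : w.IsComplex) (m : GL (Fin 2) ℂ) :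
    IsLocalAtInf w (locG_h90 (K := K) hw m) := by
  refine ⟨fun w' h => ?_, fun v => ?_⟩
  · rw [trivAtInf_iff_h90]
    exact locMat_inf_ne_h90 hw h _
  · exact locMat_fin_h90 hw v _

theorem infComp_locG_h90 {w : InfinitePlace K} (hw : w.IsComplex) (m : GL (Fin 2) ℂ) :
    infComp w (locG_h90 (K := K) hw m) = (m : Matrix (Fin 2) (Fin 2) ℂ) := by
  rw [infComp_eq_map_h90]
  have : infRaw_h90 w (locG_h90 (K := K) hw m)
      = (m : Matrix (Fin 2) (Fin 2) ℂ).map
          (InfinitePlace.Completion.ringEquivComplexOfIsComplex hw).symm :=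
    locMat_inf_self_h90 hw _
  rw [this]
  refine Matrix.ext fun i j => ?_
  simp only [Matrix.map_apply]
  exact (InfinitePlace.Completion.ringEquivComplexOfIsComplex hw).apply_symm_apply _

/-- An element supported at `w` is determined by its component at `w`. -/
theorem eq_of_local_h90 {w : InfinitePlace K} {y y' : G K} (hy : IsLocalAtInf w y)
    (hy' : IsLocalAtInf w y') (h : infComp w y = infComp w y') : y = y' := by
  refine gl_ext_h90 ?_ ?_
  · intro w'
    by_cases h1 : w' = w
    · subst h1
      exact infRaw_injective_h90 w' h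
    · rw [(trivAtInf_iff_h90 w' y).1 (hy.1 w' h1), (trivAtInf_iff_h90 w' y').1 (hy'.1 w' h1)]
  · intro v
    rw [show finComp v y = 1 from hy.2 v, show finComp v y' = 1 from hy'.2 v]

theorem isLocal_mul_h90 {w : InfinitePlace K} {y y' : G K} (hy : IsLocalAtInf w y)
    (hy' : IsLocalAtInf w y') : IsLocalAtInf w (y * y') := by
  refine ⟨fun w' h => ?_, fun v => ?_⟩
  · rw [trivAtInf_iff_h90, infRaw_mul_h90, (trivAtInf_iff_h90 w' y).1 (hy.1 w' h),
      (trivAtInf_iff_h90 w' y').1 (hy'.1 w' h), one_mul]
  · change finComp v (y * y') = 1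
    rw [finComp_mul_h90, show finComp v y = 1 from hy.2 v, show finComp v y' = 1 from hy'.2 v,
      one_mul]

end Fermat.Agent.LT.T2.H90
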