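import Mathlib
import Fermat.Agent.LT.T2.H429.OpsSpec
import Fermat.Agent.LT.T2.H90.LocComp

/-!
# Row LT, tower T2, sub-leaf T2.07.12 `SubSpherePres429` (helper90) -- OFF-MAIN

`subSpherePres_h90 : SubS2Rot429 → SubLocCont429 K → SubSpherePres429 K`:
sphere means at a complex place preserve the cusp functions of level `U(𝔫)`.

Inputs: the auxiliary sub-leaves T2.07.30 (`SubLocCont429`) and T2.07.31 (`SubS2Rot429`) of
`LT/T2/H429/OpsSpec.lean`, as announced in the doc-comment of T2.07.12.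
-/

set_option autoImplicit false
set_option linter.unusedSectionVars false
set_option linter.style.haveILetI false

open IsDedekindDomain NumberField MeasureTheory
open Fermat.Agent.LT.H556.A0
open Fermat.Agent.LT.T2 Fermat.Agent.LT.T2.H429
open scoped Pointwise

noncomputable section

namespace Fermat.Agent.LT.T2.H90

variable {K : Type} [Field K] [NumberField K]

/-! ## 4. Continuity of the parametrisation -/

theorem continuous_rotZ_h90 : Continuous rotZ := by
  unfold rotZ
  refine continuous_matrix ?_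
  intro i j
  fin_cases i <;> fin_cases j <;> simp <;> fun_prop

theorem continuous_rotY_h90 : Continuous rotY := by
  unfold rotY
  refine continuous_matrix ?_
  intro i j
  fin_cases i <;> fin_cases j <;> simp <;> fun_prop

/-- The parametrisation of a sphere is continuous. -/
theorem continuous_sphere_h90 (hLC : SubLocCont429 K) {w : InfinitePlace K} {d : ℝ}
    {Y : ℝ → ℝ → G K} (hY : IsSphereAt w d Y) :
    Continuous fun p : ℝ × ℝ => Y p.1 p.2 := by
  refine hLC w (ℝ × ℝ) _ (fun p => (hY p.1 p.2).1) ?_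
  intro i j
  have h : (fun p : ℝ × ℝ => infComp w (Y p.1 p.2) i j)
      = fun p : ℝ × ℝ => (rotZ p.1 * rotY p.2 * torus d) i j := by
    funext p
    rw [(hY p.1 p.2).2]
  rw [h]
  have h1 : Continuous fun p : ℝ × ℝ => rotZ p.1 * rotY p.2 * torus d :=
    ((continuous_rotZ_h90.comp continuous_fst).mul (continuous_rotY_h90.comp continuous_snd)).mul
      continuous_const
  exact (continuous_apply_apply i j).comp h1

/-! ## 5. Continuity and boundedness of the mean -/

theorem continuous_integrand_h90 {X : Type} [TopologicalSpace X] {a : X → G K}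
    (ha : Continuous a) {φ : G K → ℂ} (hφ : Continuous φ) {Y : ℝ → ℝ → G K}
    (hYc : Continuous fun p : ℝ × ℝ => Y p.1 p.2) :
    Continuous fun q : (X × ℝ) × ℝ => φ (a q.1.1 * Y q.1.2 q.2) * ((Real.sin q.2 : ℝ) : ℂ) := by
  have h0 : Continuous fun q : (X × ℝ) × ℝ => a q.1.1 :=
    ha.comp (continuous_fst.comp continuous_fst)
  have h1 : Continuous fun q : (X × ℝ) × ℝ => Y q.1.2 q.2 :=
    hYc.comp ((continuous_snd.comp continuous_fst).prodMk continuous_snd)
  have h2 : Continuous fun q : (X × ℝ) × ℝ => a q.1.1 * Y q.1.2 q.2 := h0.mul h1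
  exact (hφ.comp h2).mul
    (Complex.continuous_ofReal.comp (Real.continuous_sin.comp continuous_snd))

theorem continuous_inner_h90 {X : Type} [TopologicalSpace X] {a : X → G K}
    (ha : Continuous a) {φ : G K → ℂ} (hφ : Continuous φ) {Y : ℝ → ℝ → G K}
    (hYc : Continuous fun p : ℝ × ℝ => Y p.1 p.2) :
    Continuous fun p : X × ℝ =>
      ∫ β in (0 : ℝ)..Real.pi, φ (a p.1 * Y p.2 β) * ((Real.sin β : ℝ) : ℂ) :=
  intervalIntegral.continuous_parametric_intervalIntegral_of_continuous'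
    (f := fun (p : X × ℝ) (β : ℝ) => φ (a p.1 * Y p.2 β) * ((Real.sin β : ℝ) : ℂ))
    (continuous_integrand_h90 ha hφ hYc) 0 Real.pi

theorem continuous_outer_h90 {X : Type} [TopologicalSpace X] {a : X → G K}
    (ha : Continuous a) {φ : G K → ℂ} (hφ : Continuous φ) {Y : ℝ → ℝ → G K}
    (hYc : Continuous fun p : ℝ × ℝ => Y p.1 p.2) :
    Continuous fun x : X => ∫ α in (0 : ℝ)..(2 * Real.pi),
      ∫ β in (0 : ℝ)..Real.pi, φ (a x * Y α β) * ((Real.sin β : ℝ) : ℂ) :=
  intervalIntegral.continuous_parametric_intervalIntegral_of_continuous'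
    (f := fun (x : X) (α : ℝ) =>
      ∫ β in (0 : ℝ)..Real.pi, φ (a x * Y α β) * ((Real.sin β : ℝ) : ℂ))
    (continuous_inner_h90 ha hφ hYc) 0 (2 * Real.pi)

theorem continuous_sphereMean_h90 {φ : G K → ℂ} (hφ : Continuous φ) {Y : ℝ → ℝ → G K}
    (hYc : Continuous fun p : ℝ × ℝ => Y p.1 p.2) : Continuous (sphereMean Y φ) :=
  continuous_outer_h90 (a := fun g : G K => g) continuous_id hφ hYc

theorem norm_inner_le_h90 {φ : G K → ℂ} {C : ℝ} (hC : ∀ g : G K, ‖φ g‖ ≤ C)
    (Y : ℝ → ℝ → G K) (g : G K) (α : ℝ) :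
    ‖∫ β in (0 : ℝ)..Real.pi, φ (g * Y α β) * ((Real.sin β : ℝ) : ℂ)‖ ≤ C * Real.pi := by
  have h := intervalIntegral.norm_integral_le_of_norm_le_const (a := (0 : ℝ)) (b := Real.pi)
    (C := C) (f := fun β => φ (g * Y α β) * ((Real.sin β : ℝ) : ℂ)) (by
      intro β _
      rw [norm_mul, Complex.norm_real]
      have h1 : ‖Real.sin β‖ ≤ 1 := by
        rw [Real.norm_eq_abs]
        exact Real.abs_sin_le_one β
      have h0 : 0 ≤ C := (norm_nonneg _).trans (hC 1)
      calc ‖φ (g * Y α β)‖ * ‖Real.sin β‖ ≤ C * 1 :=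
            mul_le_mul (hC _) h1 (norm_nonneg _) h0
        _ = C := mul_one C)
  rwa [sub_zero, abs_of_pos Real.pi_pos] at h

theorem bdd_sphereMean_h90 {φ : G K → ℂ} (hφ : ∃ C : ℝ, ∀ g : G K, ‖φ g‖ ≤ C)
    (Y : ℝ → ℝ → G K) : ∃ C : ℝ, ∀ g : G K, ‖sphereMean Y φ g‖ ≤ C := by
  obtain ⟨C, hC⟩ := hφ
  refine ⟨C * Real.pi * (2 * Real.pi), fun g => ?_⟩
  have h := intervalIntegral.norm_integral_le_of_norm_le_const (a := (0 : ℝ))
    (b := 2 * Real.pi) (C := C * Real.pi)
    (f := fun α => ∫ β in (0 : ℝ)..Real.pi, φ (g * Y α β) * ((Real.sin β : ℝ) : ℂ))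
    (fun α _ => norm_inner_le_h90 hC Y g α)
  rwa [sub_zero, abs_of_pos (by positivity : (0 : ℝ) < 2 * Real.pi)] at h

/-! ## 6. The invariances which follow from commutation -/

theorem sphereMean_congr_h90 {φ : G K → ℂ} {Y : ℝ → ℝ → G K} {g g' : G K}
    (h : ∀ α β : ℝ, φ (g * Y α β) = φ (g' * Y α β)) :
    sphereMean Y φ g = sphereMean Y φ g' := by
  unfold sphereMean
  simp only [h]

theorem sphereMean_right_h90 {φ : G K → ℂ} {Y : ℝ → ℝ → G K} {u : G K}
    (hcomm : ∀ α β : ℝ, u * Y α β = Y α β * u) (hinv : ∀ g : G K, φ (g * u) = φ g) (g : G K) :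
    sphereMean Y φ (g * u) = sphereMean Y φ g := by
  refine sphereMean_congr_h90 fun α β => ?_
  rw [mul_assoc, hcomm α β, ← mul_assoc, hinv]

/-! ## 7. Invariance under `U(2)` at the place of the mean -/

theorem infComp_one_h90 (w : InfinitePlace K) : infComp w (1 : G K) = 1 := by
  rw [infComp_eq_map_h90]
  have h : infRaw_h90 w (1 : G K) = 1 := by
    unfold infRaw_h90
    rw [Units.val_one, Matrix.map_one _ (map_zero _) (map_one _)]
  rw [h, Matrix.map_one _ (map_zero _) (map_one _)]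

theorem det_infComp_ne_zero_h90 (w : InfinitePlace K) (y : G K) : (infComp w y).det ≠ 0 := by
  have h : infComp w y * infComp w y⁻¹ = 1 := by
    rw [← infComp_mul_h90, mul_inv_cancel, infComp_one_h90]
  exact (Matrix.isUnit_det_of_right_inverse h).ne_zero

theorem det_ne_zero_of_unitary_h90 {k : Matrix (Fin 2) (Fin 2) ℂ}
    (hk : k * k.conjTranspose = 1) : k.det ≠ 0 :=
  (Matrix.isUnit_det_of_right_inverse hk).ne_zero

open Classical in
/-- The function `m ↦ φ(g · m_w)` on `GL₂(ℂ)`, extended by `0`. -/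
def psi_h90 {w : InfinitePlace K} (hw : w.IsComplex) (φ : G K → ℂ) (g : G K)
    (m : Matrix (Fin 2) (Fin 2) ℂ) : ℂ :=
  if h : m.det ≠ 0 then φ (g * locG_h90 hw (Matrix.GeneralLinearGroup.mkOfDetNeZero m h)) else 0

theorem psi_of_det_ne_zero_h90 {w : InfinitePlace K} (hw : w.IsComplex) (φ : G K → ℂ) (g : G K)
    {m : Matrix (Fin 2) (Fin 2) ℂ} (h : m.det ≠ 0) :
    psi_h90 hw φ g m = φ (g * locG_h90 hw (Matrix.GeneralLinearGroup.mkOfDetNeZero m h)) := by
  unfold psi_h90
  rw [dif_pos h]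

theorem psi_of_det_eq_zero_h90 {w : InfinitePlace K} (hw : w.IsComplex) (φ : G K → ℂ) (g : G K)
    {m : Matrix (Fin 2) (Fin 2) ℂ} (h : m.det = 0) : psi_h90 hw φ g m = 0 := by
  unfold psi_h90
  rw [dif_neg (not_not.2 h)]

/-- An element supported at `w` is the element `locG_h90` of its component. -/
theorem eq_locG_h90 {w : InfinitePlace K} (hw : w.IsComplex) {y : G K} (hy : IsLocalAtInf w y)
    {m : Matrix (Fin 2) (Fin 2) ℂ} (hm : infComp w y = m) (h : m.det ≠ 0) :
    y = locG_h90 hw (Matrix.GeneralLinearGroup.mkOfDetNeZero m h) := by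
  refine eq_of_local_h90 hy (locG_isLocal_h90 hw _) ?_
  rw [infComp_locG_h90, hm]
  rfl

theorem psi_of_local_h90 {w : InfinitePlace K} (hw : w.IsComplex) (φ : G K → ℂ) (g : G K)
    {y : G K} (hy : IsLocalAtInf w y) {m : Matrix (Fin 2) (Fin 2) ℂ} (hm : infComp w y = m) :
    φ (g * y) = psi_h90 hw φ g m := by
  have h : m.det ≠ 0 := hm ▸ det_infComp_ne_zero_h90 w y
  rw [psi_of_det_ne_zero_h90 hw φ g h, ← eq_locG_h90 hw hy hm h]

/-- `ψ` is right invariant under `U(2)`. -/
theorem psi_unitary_h90 {w : InfinitePlace K} (hw : w.IsComplex) {φ : G K → ℂ}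
    (hφ : ∀ k : G K, IsArchCompact w k → ∀ g : G K, φ (g * k) = φ g) (g : G K)
    (m k : Matrix (Fin 2) (Fin 2) ℂ) (hk : k * k.conjTranspose = 1) :
    psi_h90 hw φ g (m * k) = psi_h90 hw φ g m := by
  have hkd : k.det ≠ 0 := det_ne_zero_of_unitary_h90 hk
  by_cases h : m.det = 0
  · rw [psi_of_det_eq_zero_h90 hw φ g h,
      psi_of_det_eq_zero_h90 hw φ g (by rw [Matrix.det_mul, h, zero_mul])]
  · have hmk : (m * k).det ≠ 0 := by
      rw [Matrix.det_mul]
      exact mul_ne_zero h hkd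
    have h1 : Matrix.GeneralLinearGroup.mkOfDetNeZero (m * k) hmk
        = Matrix.GeneralLinearGroup.mkOfDetNeZero m h
          * Matrix.GeneralLinearGroup.mkOfDetNeZero k hkd := by
      apply Units.ext
      rfl
    have h2 : IsArchCompact w (locG_h90 (K := K) hw
        (Matrix.GeneralLinearGroup.mkOfDetNeZero k hkd)) := by
      refine ⟨locG_isLocal_h90 hw _, ?_, fun hr => ?_⟩
      · rw [infComp_locG_h90]
        exact hk
      · exact absurd hr (InfinitePlace.not_isReal_iff_isComplex.2 hw)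
    rw [psi_of_det_ne_zero_h90 hw φ g hmk, psi_of_det_ne_zero_h90 hw φ g h, h1, locG_mul_h90,
      ← mul_assoc, hφ _ h2]

/-- `ψ` is continuous on `GL₂(ℂ)`. -/
theorem psi_continuousOn_h90 (hLC : SubLocCont429 K) {w : InfinitePlace K} (hw : w.IsComplex)
    {φ : G K → ℂ} (hφ : Continuous φ) (g : G K) :
    ContinuousOn (psi_h90 hw φ g) {m | m.det ≠ 0} := by
  rw [continuousOn_iff_continuous_domRestrict]
  have h1 : Continuous fun m : {m : Matrix (Fin 2) (Fin 2) ℂ | m.det ≠ 0} =>
      locG_h90 (K := K) hw (Matrix.GeneralLinearGroup.mkOfDetNeZero m.1 m.2) := by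
    refine hLC w _ _ (fun m => locG_isLocal_h90 hw _) ?_
    intro i j
    have h : (fun m : {m : Matrix (Fin 2) (Fin 2) ℂ | m.det ≠ 0} =>
        infComp w (locG_h90 (K := K) hw (Matrix.GeneralLinearGroup.mkOfDetNeZero m.1 m.2)) i j)
        = fun m : {m : Matrix (Fin 2) (Fin 2) ℂ | m.det ≠ 0} => m.1 i j := by
      funext m
      rw [infComp_locG_h90]
      rfl
    rw [h]
    exact (continuous_apply_apply i j).comp continuous_subtype_val
  have h2 : Set.domRestrict {m : Matrix (Fin 2) (Fin 2) ℂ | m.det ≠ 0} (psi_h90 hw φ g)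
      = fun m : {m : Matrix (Fin 2) (Fin 2) ℂ | m.det ≠ 0} =>
        φ (g * locG_h90 (K := K) hw (Matrix.GeneralLinearGroup.mkOfDetNeZero m.1 m.2)) := by
    funext m
    exact psi_of_det_ne_zero_h90 hw φ g m.2
  rw [h2]
  exact hφ.comp (continuous_const.mul h1)

theorem sphereMean_eq_h90 {φ : G K → ℂ} {Y : ℝ → ℝ → G K} {g : G K} {F : ℝ → ℝ → ℂ}
    (h : ∀ α β : ℝ, φ (g * Y α β) = F α β) :
    sphereMean Y φ g = ∫ α in (0 : ℝ)..(2 * Real.pi), ∫ β in (0 : ℝ)..Real.pi,
      F α β * ((Real.sin β : ℝ) : ℂ) := by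
  unfold sphereMean
  simp only [h]

/-- The sphere mean of a function which is right invariant under `U(2)` at `w` is right
invariant under `U(2)` at `w`. -/
theorem sphereMean_unitary_h90 (hS2 : SubS2Rot429) (hLC : SubLocCont429 K)
    {w : InfinitePlace K} (hw : w.IsComplex) {d : ℝ} {Y : ℝ → ℝ → G K} (hY : IsSphereAt w d Y)
    {φ : G K → ℂ} (hφc : Continuous φ)
    (hφ : ∀ k : G K, IsArchCompact w k → ∀ g : G K, φ (g * k) = φ g)
    (k : G K) (hk : IsArchCompact w k) (g : G K) :
    sphereMean Y φ (g * k) = sphereMean Y φ g := by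
  have e1 : sphereMean Y φ (g * k) = ∫ α in (0 : ℝ)..(2 * Real.pi), ∫ β in (0 : ℝ)..Real.pi,
      psi_h90 hw φ g (infComp w k * (rotZ α * rotY β * torus d))
        * ((Real.sin β : ℝ) : ℂ) := by
    refine sphereMean_eq_h90 fun α β => ?_
    rw [mul_assoc]
    refine psi_of_local_h90 hw φ g (isLocal_mul_h90 hk.1 (hY α β).1) ?_
    rw [infComp_mul_h90, (hY α β).2]
  have e2 : sphereMean Y φ g = ∫ α in (0 : ℝ)..(2 * Real.pi), ∫ β in (0 : ℝ)..Real.pi,
      psi_h90 hw φ g (rotZ α * rotY β * torus d) * ((Real.sin β : ℝ) : ℂ) :=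
    sphereMean_eq_h90 fun α β => psi_of_local_h90 hw φ g (hY α β).1 (hY α β).2
  rw [e1, e2]
  exact hS2 (psi_h90 hw φ g) (psi_continuousOn_h90 hLC hw hφc g)
    (psi_unitary_h90 hw hφ g) (infComp w k) hk.2.1 d

/-! ## 8. Cuspidality -/

/-- A number field is countable. -/
theorem countable_field_h90 (K : Type) [Field K] [NumberField K] : Countable K := by
  have : Module.Finite ℚ K := inferInstance
  let b := Module.finBasis ℚ K
  exact b.equivFun.toEquiv.injective.countable

/-- The principal adeles (the group of `A0.IsCuspidalFn`). -/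
abbrev princ_h90 (K : Type) [Field K] [NumberField K] : AddSubgroup (Adl K) :=
  (algebraMap K (Adl K)).toAddMonoidHom.range

theorem countable_princ_h90 (K : Type) [Field K] [NumberField K] : Countable (princ_h90 K) := by
  have := countable_field_h90 K
  have : Function.Surjective
      (fun ξ : K => (⟨algebraMap K (Adl K) ξ, ⟨ξ, rfl⟩⟩ : princ_h90 K)) := by
    rintro ⟨x, ξ, rfl⟩
    exact ⟨ξ, rfl⟩
  exact this.countable

/-- Cocompactness gives finite covolume. -/
theorem measure_fundDom_lt_top_h90 [MeasurableSpace (Adl K)] [BorelSpace (Adl K)]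
    (μ : Measure (Adl K)) [μ.IsAddHaarMeasure]
    (hcoc : ∃ C : Set (Adl K), IsCompact C ∧ ∀ x : Adl K, ∃ ξ : K, x - algebraMap K (Adl K) ξ ∈ C)
    (D : Set (Adl K)) (hD : IsAddFundamentalDomain (princ_h90 K) D μ) : μ D < ⊤ := by
  haveI := countable_princ_h90 K
  obtain ⟨C, hC, hcov⟩ := hcoc
  have h1 : μ C = ∑' g : princ_h90 K, μ ((g +ᵥ C) ∩ D) := hD.measure_eq_tsum C
  have h2 : D ⊆ ⋃ g : princ_h90 K, (g +ᵥ C) ∩ D := by
    intro x hx
    obtain ⟨ξ, hξ⟩ := hcov x
    refine Set.mem_iUnion.2 ⟨⟨algebraMap K (Adl K) ξ, ⟨ξ, rfl⟩⟩, ?_, hx⟩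
    refine ⟨x - algebraMap K (Adl K) ξ, hξ, ?_⟩
    change algebraMap K (Adl K) ξ + (x - algebraMap K (Adl K) ξ) = x
    abel
  calc μ D ≤ μ (⋃ g : princ_h90 K, (g +ᵥ C) ∩ D) := measure_mono h2
    _ ≤ ∑' g : princ_h90 K, μ ((g +ᵥ C) ∩ D) := measure_iUnion_le _
    _ = μ C := h1.symm
    _ < ⊤ := hC.measure_lt_top

/-- The unipotent element `n(x)`. -/
def unip_h90 (x : Adl K) : G K :=
  ⟨!![1, x; 0, 1], !![1, -x; 0, 1],
    by ext i j; fin_cases i <;> fin_cases j <;> simp [Matrix.mul_apply, Fin.sum_univ_two],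
    by ext i j; fin_cases i <;> fin_cases j <;> simp [Matrix.mul_apply, Fin.sum_univ_two]⟩

theorem continuous_unip_h90 : Continuous (unip_h90 (K := K)) := by
  rw [Units.continuous_iff]
  constructor
  · change Continuous fun x : Adl K => (!![1, x; 0, 1] : Matrix (Fin 2) (Fin 2) (Adl K))
    refine continuous_matrix ?_
    intro i j
    fin_cases i <;> fin_cases j <;> simp <;> fun_prop
  · change Continuous fun x : Adl K => (!![1, -x; 0, 1] : Matrix (Fin 2) (Fin 2) (Adl K))
    refine continuous_matrix ?_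
    intro i j
    fin_cases i <;> fin_cases j <;> simp <;> fun_prop

theorem continuous_of_unip_h90 {n : Adl K → G K}
    (hn : ∀ x : Adl K, (n x : Matrix (Fin 2) (Fin 2) (Adl K)) = !![1, x; 0, 1]) :
    Continuous n := by
  have h : n = unip_h90 := by
    funext x
    apply Units.ext
    rw [hn x]
    rfl
  rw [h]
  exact continuous_unip_h90

/-- Fubini: the constant term of the sphere mean is the sphere mean of the constant term. -/
theorem cusp_aux_h90 [MeasurableSpace (Adl K)] [BorelSpace (Adl K)]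
    {φ : G K → ℂ} (hφc : Continuous φ) {C : ℝ} (hC : ∀ g : G K, ‖φ g‖ ≤ C)
    {Y : ℝ → ℝ → G K} (hYc : Continuous fun p : ℝ × ℝ => Y p.1 p.2)
    (μ : Measure (Adl K)) (D : Set (Adl K)) (hDfin : μ D < ⊤)
    (n : Adl K → G K) (hn : Continuous n) (g : G K)
    (hcusp : ∀ g' : G K, ∫ x in D, φ (n x * g') ∂μ = 0) :
    ∫ x in D, sphereMean Y φ (n x * g) ∂μ = 0 := by
  haveI : IsFiniteMeasure (μ.restrict D) := ⟨by rw [Measure.restrict_apply_univ]; exact hDfin⟩
  have hpi : (0 : ℝ) ≤ Real.pi := Real.pi_pos.le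
  have h2pi : (0 : ℝ) ≤ 2 * Real.pi := by positivity
  have hng : Continuous fun x : Adl K => n x * g := hn.mul continuous_const
  -- the integrand and the inner integral are continuous
  have hGc : Continuous fun p : Adl K × ℝ =>
      ∫ β in (0 : ℝ)..Real.pi, φ (n p.1 * g * Y p.2 β) * ((Real.sin β : ℝ) : ℂ) :=
    continuous_inner_h90 hng hφc hYc
  have h0 : 0 ≤ C := (norm_nonneg _).trans (hC 1)
  -- first exchange
  have h1 : ∫ x in D, sphereMean Y φ (n x * g) ∂μ
      = ∫ x in D, (∫ α in Set.Ioc (0 : ℝ) (2 * Real.pi),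
          (∫ β in (0 : ℝ)..Real.pi, φ (n x * g * Y α β) * ((Real.sin β : ℝ) : ℂ))) ∂μ := by
    refine integral_congr_ae (Filter.Eventually.of_forall fun x => ?_)
    show sphereMean Y φ (n x * g) = _
    unfold sphereMean
    rw [intervalIntegral.integral_of_le h2pi]
  have hint1 : Integrable (Function.uncurry fun (x : Adl K) (α : ℝ) =>
      ∫ β in (0 : ℝ)..Real.pi, φ (n x * g * Y α β) * ((Real.sin β : ℝ) : ℂ))
      ((μ.restrict D).prod (volume.restrict (Set.Ioc (0 : ℝ) (2 * Real.pi)))) := by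
    refine Integrable.of_bound hGc.aestronglyMeasurable (C * Real.pi)
      (Filter.Eventually.of_forall ?_)
    rintro ⟨x, α⟩
    exact norm_inner_le_h90 hC Y (n x * g) α
  rw [h1, integral_integral_swap hint1]
  -- second exchange
  have h2 : ∀ α : ℝ, ∫ x in D,
      (∫ β in (0 : ℝ)..Real.pi, φ (n x * g * Y α β) * ((Real.sin β : ℝ) : ℂ)) ∂μ = 0 := by
    intro α
    have h3 : ∫ x in D,
        (∫ β in (0 : ℝ)..Real.pi, φ (n x * g * Y α β) * ((Real.sin β : ℝ) : ℂ)) ∂μ
        = ∫ x in D, (∫ β in Set.Ioc (0 : ℝ) Real.pi,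
            φ (n x * g * Y α β) * ((Real.sin β : ℝ) : ℂ)) ∂μ := by
      refine integral_congr_ae (Filter.Eventually.of_forall fun x => ?_)
      show (∫ β in (0 : ℝ)..Real.pi, φ (n x * g * Y α β) * ((Real.sin β : ℝ) : ℂ)) = _
      rw [intervalIntegral.integral_of_le hpi]
    have hFc' : Continuous fun p : Adl K × ℝ =>
        φ (n p.1 * g * Y α p.2) * ((Real.sin p.2 : ℝ) : ℂ) := by
      have h7 : Continuous fun p : Adl K × ℝ => Y α p.2 :=
        hYc.comp (continuous_const.prodMk continuous_snd)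
      have h8 : Continuous fun p : Adl K × ℝ => n p.1 * g * Y α p.2 :=
        (hng.comp continuous_fst).mul h7
      exact (hφc.comp h8).mul
        (Complex.continuous_ofReal.comp (Real.continuous_sin.comp continuous_snd))
    have hint2 : Integrable (Function.uncurry fun (x : Adl K) (β : ℝ) =>
        φ (n x * g * Y α β) * ((Real.sin β : ℝ) : ℂ))
        ((μ.restrict D).prod (volume.restrict (Set.Ioc (0 : ℝ) Real.pi))) := by
      refine Integrable.of_bound hFc'.aestronglyMeasurable C (Filter.Eventually.of_forall ?_)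
      rintro ⟨x, β⟩
      show ‖φ (n x * g * Y α β) * ((Real.sin β : ℝ) : ℂ)‖ ≤ C
      rw [norm_mul, Complex.norm_real]
      have h4 : ‖Real.sin β‖ ≤ 1 := by
        rw [Real.norm_eq_abs]
        exact Real.abs_sin_le_one β
      calc ‖φ (n x * g * Y α β)‖ * ‖Real.sin β‖ ≤ C * 1 :=
            mul_le_mul (hC _) h4 (norm_nonneg _) h0
        _ = C := mul_one C
    rw [h3, integral_integral_swap hint2]
    have h5 : ∀ β : ℝ, ∫ x in D, φ (n x * g * Y α β) * ((Real.sin β : ℝ) : ℂ) ∂μ = 0 := by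
      intro β
      rw [integral_mul_const]
      have h6 : ∫ x in D, φ (n x * g * Y α β) ∂μ = 0 := by
        have := hcusp (g * Y α β)
        simpa only [mul_assoc] using this
      rw [h6, zero_mul]
    simp only [h5, integral_zero]
  simp only [h2, integral_zero]

/-! ## 9. The sub-leaf -/

/-- **T2.07.12 `SubSpherePres429`** from the auxiliary sub-leaves T2.07.31 (`SubS2Rot429`) and
T2.07.30 (`SubLocCont429`): sphere means preserve the cusp functions. -/
theorem subSpherePres_h90 (hS2 : SubS2Rot429) (hLC : SubLocCont429 K) : SubSpherePres429 K := by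
  intro 𝔫 c w hw d _ Y hY φ hφ
  have hYc : Continuous fun p : ℝ × ℝ => Y p.1 p.2 := continuous_sphere_h90 hLC hY
  refine ⟨continuous_sphereMean_h90 hφ.cont hYc, bdd_sphereMean_h90 hφ.bdd Y, ?_, ?_, ?_, ?_, ?_⟩
  · -- left invariance under `GL₂(K)`
    intro γ g
    refine sphereMean_congr_h90 fun α β => ?_
    rw [mul_assoc, hφ.left_inv]
  · -- right invariance under `U(𝔫)`
    intro u hu g
    exact sphereMean_right_h90 (fun α β => commute_level_local_h90 hu.1 (hY α β).1)
      (hφ.level_inv u hu) g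
  · -- right invariance under the positive scalars at the infinite places
    intro w' z hz g
    obtain ⟨r, _, hr⟩ := hz.2
    exact sphereMean_right_h90
      (fun α β => commute_local_local_h90 hz.1 (hY α β).1 (Or.inr ⟨(r : ℂ), hr⟩))
      (hφ.arch_scalar w' z hz) g
  · -- right invariance under the compact groups at the infinite places
    intro w' k hk g
    by_cases h : w' = w
    · subst h
      exact sphereMean_unitary_h90 hS2 hLC hw hY hφ.cont (hφ.arch_compact w') k hk g
    · exact sphereMean_right_h90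
        (fun α β => commute_local_local_h90 hk.1 (hY α β).1 (Or.inl h))
        (hφ.arch_compact w' k hk) g
  · -- cuspidality
    intro μ hμ D hD n hn g
    letI : MeasurableSpace (Adl K) := borel (Adl K)
    haveI : BorelSpace (Adl K) := ⟨rfl⟩
    haveI : μ.IsAddHaarMeasure := hμ
    obtain ⟨C, hC⟩ := hφ.bdd
    have hDfin : μ D < ⊤ := measure_fundDom_lt_top_h90 μ c.t1.adeleLattice.2.2 D hD
    exact cusp_aux_h90 hφ.cont hC hYc μ D hDfin n (continuous_of_unip_h90 hn) g
      (fun g' => hφ.cuspidal μ hμ D hD n hn g')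

end Fermat.Agent.LT.T2.H90
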