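import Mathlib
import Fermat.Agent.LT.T2.H429.OpsSpec
import Fermat.Agent.LT.T2.H472.LocContLeaf
import Fermat.Agent.LT.T2.H197.S2RotLeaf
import Fermat.Agent.LT.T2.H90.SpherePres

/-!
# Row LT, tower T2, sub-leaf T2.07.12 `SubSpherePres429` (helper90), CLOSED -- OFF-MAIN

* `subSpherePres_of_s2Rot_h90 (K) : SubS2Rot429 → SubSpherePres429 K`: T2.07.12 with the input
  T2.07.30 discharged by `subLocCont472` (helper472@e9c950742);
* `subSpherePresClosed_h90 (K) : SubSpherePres429 K`: UNCONDITIONAL, with the input T2.07.31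
  discharged by `subS2Rot197` (helper197@95fdc5e47).

Byte-identical copies of `LT/T2/H472/{LocCont,LocContLeaf}.lean` and of
`LT/T2/H197/{S2Core,S2Rot,S2RotLeaf}.lean`.
-/

set_option autoImplicit false

open IsDedekindDomain NumberField
open Fermat.Agent.LT.H556.A0
open Fermat.Agent.LT.T2 Fermat.Agent.LT.T2.H429

namespace Fermat.Agent.LT.T2.H90

/-- **T2.07.12** from T2.07.31 alone. -/
theorem subSpherePres_of_s2Rot_h90 (K : Type) [Field K] [NumberField K] (hS2 : SubS2Rot429) :
    SubSpherePres429 K :=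
  subSpherePres_h90 hS2 (Fermat.Agent.LT.T2.H472.subLocCont472 K)

/-- **T2.07.12 `SubSpherePres429`, UNCONDITIONAL.** -/
theorem subSpherePresClosed_h90 (K : Type) [Field K] [NumberField K] : SubSpherePres429 K :=
  subSpherePres_of_s2Rot_h90 K Fermat.Agent.LT.T2.H197.subS2Rot197

end Fermat.Agent.LT.T2.H90
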